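import Fermat.Agent.MWW.Weak

/-!
# Mordell-Weil for `J_0(N)` from a height function
-/

set_option autoImplicit false
set_option linter.unusedSectionVars false

noncomputable section

namespace Fermat.Agent.MWW

open ModularCurve AlgebraicCurve

local notation "Qbar" => AlgebraicClosure ℚ
local notation "GQ" => Qbar ≃ₐ[ℚ] Qbar

variable {N : ℕ} [NeZero N]

/-- descent with an odd prime -/
theorem fg_of_descent {p : ℕ} (hp : p.Prime) (hp2 : 2 < p) {h : JQ N → ℝ} {a b c₀ : ℝ}
    {c : JQ N → ℝ} (ha : 0 ≤ a) (hab : a < b) (H₂ : ∀ g x, h x ≤ a * h (g + x) + c g)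
    (H₃ : ∀ x, b * h x - c₀ ≤ h (p • x)) [Northcott h] : AddGroup.FG (JQ N) := by
  have : Fact p.Prime := ⟨hp⟩
  have := weak_finite (N := N) hp2
  refine AddCommGroup.fg_of_descent (n := p) ha hab ?_ H₂ H₃
  exact AddSubgroup.finiteIndex_of_finite_quotient

/-- **Mordell-Weil for `J_0(N)`** from a non-negative function satisfying the approximate
parallelogram law and the Northcott property -/
theorem fg_of_height {h : JQ N → ℝ} {C : ℝ} (H₂ : ∀ x, 0 ≤ h x)
    (H₃ : ∀ x y, |h (x + y) + h (x - y) - 2 * (h x + h y)| ≤ C) [Northcott h] :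
    AddGroup.FG (JQ N) := by
  have h1 : ∀ x, 4 * h x - (h 0 + C) ≤ h (x + x) := fun x => by
    have := (abs_le.mp (H₃ x x)).1
    rw [sub_self] at this
    linarith
  refine fg_of_descent (h := h) (p := 3) (by norm_num) (by norm_num) (a := 2) (b := 9)
    (c₀ := 2 * h 0 + 3 * C) (c := fun g => 2 * h g + C + (2 * h (-g) + 2 * C)) (by norm_num)
    (by norm_num) (fun g x => ?_) (fun x => ?_)
  · have h2 := (abs_le.mp (H₃ (g + x) g)).2
    have h3 := (abs_le.mp (H₃ (g + x) g)).1
    rw [add_sub_cancel_left] at h2 h3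
    have h4 := H₂ (g + x + g)
    have h5 := H₂ (-g)
    have h6 : 0 ≤ C := le_trans (abs_nonneg _) (H₃ 0 0)
    linarith
  · have h2 := (abs_le.mp (H₃ (x + x) x)).1
    rw [add_sub_cancel_right] at h2
    have h3 := h1 x
    have e : (3 : ℕ) • x = x + x + x := by
      rw [show (3 : ℕ) = 1 + 1 + 1 from rfl, add_nsmul, add_nsmul, one_nsmul]
    rw [e]
    linarith

end Fermat.Agent.MWW
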