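import Fermat.Agent.DivJ.All
import Fermat.Agent.Maz.LevJ
import Fermat.Agent.MazH.Op
import Fermat.Agent.CFT.PT10
import Fermat.Agent.EulerC.Dual

/-!
# Weak Mordell-Weil for `J_0(N)`

For an odd prime `p`, the group `J_0(N)(ℚ) / p` is finite.
-/

set_option autoImplicit false
set_option linter.unusedSectionVars false
set_option linter.style.haveILetI false
set_option synthInstance.maxHeartbeats 400000
set_option maxHeartbeats 400000

noncomputable section

namespace Fermat.Agent.MWW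

open ModularCurve AlgebraicCurve Fermat.Agent.CFT Fermat.Agent.EulerC Fermat.Agent.MazHS

local notation "Qbar" => AlgebraicClosure ℚ
local notation "GQ" => Qbar ≃ₐ[ℚ] Qbar

section dual

variable {p : ℕ} [hp : Fact p.Prime] {ζ : Qbar} (hζ : IsPrimitiveRoot ζ p)
  (V : Type*) [AddCommGroup V] [DistribMulAction GQ V]

/-- the twisted dual of a Galois module -/
def DV (_hζ : IsPrimitiveRoot ζ p) (V : Type*) [AddCommGroup V] : Type _ := V →+ ZMod p

instance : AddCommGroup (DV hζ V) := inferInstanceAs (AddCommGroup (V →+ ZMod p))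

/-- evaluation -/
def dvE {V : Type*} [AddCommGroup V] (l : DV hζ V) : V →+ ZMod p := l

variable {V}

theorem DV.ext {l l' : DV hζ V} (h : ∀ v, dvE hζ l v = dvE hζ l' v) : l = l' :=
  AddMonoidHom.ext (M := V) (N := ZMod p) h

instance : DistribMulAction GQ (DV hζ V) where
  smul g l := ((AddMonoidHom.mulLeft (chi hζ g : ZMod p)).comp
    ((dvE hζ l).comp (DistribSMul.toAddMonoidHom V g⁻¹)) : V →+ ZMod p)
  one_smul l := DV.ext hζ fun v => by
    change (chi hζ 1 : ZMod p) * dvE hζ l ((1 : GQ)⁻¹ • v) = _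
    rw [map_one, Units.val_one, one_mul, inv_one, one_smul]
  mul_smul g h l := DV.ext hζ fun v => by
    change (chi hζ (g * h) : ZMod p) * dvE hζ l ((g * h)⁻¹ • v) =
      (chi hζ g : ZMod p) * ((chi hζ h : ZMod p) * dvE hζ l (h⁻¹ • g⁻¹ • v))
    rw [map_mul, Units.val_mul, mul_inv_rev, mul_smul, mul_assoc]
  smul_zero g := DV.ext hζ fun v => by
    change (chi hζ g : ZMod p) * 0 = 0
    rw [mul_zero]
  smul_add g l l' := DV.ext hζ fun v => by
    change (chi hζ g : ZMod p) * (dvE hζ l (g⁻¹ • v) + dvE hζ l' (g⁻¹ • v)) =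
      (chi hζ g : ZMod p) * dvE hζ l (g⁻¹ • v) + (chi hζ g : ZMod p) * dvE hζ l' (g⁻¹ • v)
    rw [mul_add]

theorem dv_smul (g : GQ) (l : DV hζ V) (v : V) :
    dvE hζ (g • l) v = (chi hζ g : ZMod p) * dvE hζ l (g⁻¹ • v) := rfl

/-- the evaluation pairing -/
def evP (V : Type*) [AddCommGroup V] : V →+ DV hζ V →+ ZMod p :=
  AddMonoidHom.eval (M := V) (N := ZMod p)

theorem evP_apply (v : V) (l : DV hζ V) : evP hζ V v l = dvE hζ l v := rfl

theorem pdata (hV : ∀ v : V, p • v = 0) : PData p ζ (evP hζ V) where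
  tors := hV
  equi g c hc v l := by
    rw [evP_apply, evP_apply, dv_smul, inv_smul_smul, chi_unique hζ hc]
  sep l h := DV.ext hζ fun v => h v
  surj f := ⟨f, fun _ => rfl⟩

end dual

/-- fields with prescribed fixing group -/
theorem exists_field {S : Finset Nat.Primes} (H : Subgroup GQ) (L : IntermediateField ℚ Qbar)
    [FiniteDimensional ℚ L] (hL : L.fixingSubgroup ≤ H)
    (hS : ∀ q : Nat.Primes, q ∉ S → ∀ A : ValuationSubring Qbar, A.LiesOverPrime (q : ℕ) →
      A.inertiaSubgroupIn ℚ ≤ H) :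
    ∃ E : IntermediateField ℚ Qbar, E.IsUnramifiedOutside S ∧ E.fixingSubgroup ≤ H := by
  have hopen : IsOpen (H : Set GQ) :=
    Subgroup.isOpen_mono hL (IntermediateField.fixingSubgroup_isOpen L)
  have hclosed : IsClosed (H : Set GQ) := Subgroup.isClosed_of_isOpen H hopen
  have h1 : (IntermediateField.fixedField H).fixingSubgroup = H :=
    InfiniteGalois.fixingSubgroup_fixedField (⟨H, hclosed⟩ : ClosedSubgroup GQ)
  have h2 : IntermediateField.fixedField H ≤ L := by
    have h3 := IntermediateField.fixedField_antitone (F := ℚ) (E := Qbar) hL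
    rwa [InfiniteGalois.fixedField_fixingSubgroup] at h3
  refine ⟨IntermediateField.fixedField H, ⟨?_, fun q hq A hA => ?_⟩, h1.le⟩
  · exact FiniteDimensional.of_injective (IntermediateField.inclusion h2).toLinearMap
      (IntermediateField.inclusion_injective h2)
  · rw [h1]
    exact hS q hq A hA

section main

variable {N : ℕ} [NeZero N]

/-- the set of bad primes -/
def badS (N p : ℕ) : Finset Nat.Primes :=
  ((Finset.range (N * p + 1)).filter Nat.Prime).attach.image
    (fun x => (⟨x.1, (Finset.mem_filter.mp x.2).2⟩ : Nat.Primes))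

theorem not_dvd_of_notMem {N p : ℕ} (hN : N ≠ 0) (hp : p ≠ 0) {q : Nat.Primes}
    (hq : q ∉ badS N p) : ¬ (q : ℕ) ∣ N ∧ ¬ (q : ℕ) ∣ p := by
  have h : ¬ (q : ℕ) ∣ N * p := by
    intro h
    apply hq
    have h1 : (q : ℕ) ∈ (Finset.range (N * p + 1)).filter Nat.Prime := by
      rw [Finset.mem_filter, Finset.mem_range]
      exact ⟨Nat.lt_succ_of_le (Nat.le_of_dvd (Nat.pos_of_ne_zero (mul_ne_zero hN hp)) h), q.2⟩
    exact Finset.mem_image.mpr ⟨⟨q, h1⟩, Finset.mem_attach _ _, rfl⟩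
  exact ⟨fun h1 => h (h1.mul_right _), fun h1 => h (h1.mul_left _)⟩

theorem mem_badS {N p : ℕ} (hN : N ≠ 0) (hp : p.Prime) : (⟨p, hp⟩ : Nat.Primes) ∈ badS N p := by
  by_contra h
  exact (not_dvd_of_notMem hN hp.ne_zero h).2 dvd_rfl

theorem gsmul_nsmul (σ : GQ) (n : ℕ) (y : JZero N) : σ • (n • y) = n • (σ • y) :=
  map_nsmul (DistribSMul.toAddMonoidHom (JZero N) σ) n y

theorem gsmul_zero (σ : GQ) : σ • (0 : JZero N) = 0 :=
  map_zero (DistribSMul.toAddMonoidHom (JZero N) σ)

/-- inertia at a good prime fixes the points dividing a fixed point -/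
theorem inertia_fix {p : ℕ} {q : ℕ} (hq : q.Prime) (hqN : ¬ q ∣ N) (hqp : ¬ q ∣ p)
    {A : ValuationSubring Qbar} (hA : A.LiesOverPrime q) {σ : GQ}
    (hσ : σ ∈ A.inertiaSubgroupIn ℚ) {y : JZero N} (hy : σ • (p • y) = p • y) : σ • y = y := by
  obtain ⟨M, hM, ⟨r⟩⟩ := Fermat.Agent.GoodRed.exists_redMap hq hA hqN
  have h1 := Fermat.Agent.S37.redHom_inertia r hq hA hqN hσ y
  have h2 : p • (σ • y - y) = 0 := by
    rw [nsmul_sub, ← gsmul_nsmul σ p y, hy, sub_self]
  have h3 : Fermat.Agent.S37.redHom r hq hA hqN (σ • y - y) = 0 := by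
    rw [map_sub, h1, sub_self]
  exact sub_eq_zero.mp (Fermat.Agent.S37.redHom_inj r hq hA hqN hqp h2 h3)

/-- the `p`-torsion of `J_0(N)` -/
abbrev VT (N : ℕ) [NeZero N] (p : ℕ) : Type _ := torS (JZero N) p

theorem smul_mem_torS (p : ℕ) (σ : GQ) {x : JZero N} (hx : x ∈ torS (JZero N) p) :
    σ • x ∈ torS (JZero N) p := by
  rw [mem_torS] at hx ⊢
  rw [← gsmul_nsmul σ p x, hx, gsmul_zero]

instance (p : ℕ) : DistribMulAction GQ (VT N p) where
  smul σ x := ⟨σ • (x : JZero N), smul_mem_torS p σ x.2⟩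
  one_smul x := Subtype.ext (one_smul GQ (x : JZero N))
  mul_smul σ τ x := Subtype.ext (mul_smul σ τ (x : JZero N))
  smul_zero σ := Subtype.ext (smul_zero (A := JZero N) σ)
  smul_add σ x y := Subtype.ext (smul_add σ (x : JZero N) (y : JZero N))

theorem coe_smul_VT (p : ℕ) (σ : GQ) (x : VT N p) : ((σ • x : VT N p) : JZero N) = σ • (x : JZero N) :=
  rfl

theorem finite_VT {p : ℕ} (hp : p ≠ 0) : Finite (VT N p) :=
  (MazH.finite_tors (N := N) hp).to_subtype

theorem levM_VT {p : ℕ} (hp : p.Prime) : LevM (badS N p) (VT N p) := by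
  haveI := finite_VT (N := N) hp.ne_zero
  choose L hL h using fun x : VT N p => Maz.level_J (x : JZero N)
  haveI := hL
  haveI : FiniteDimensional ℚ (⨆ x, L x : IntermediateField ℚ Qbar) :=
    IntermediateField.finiteDimensional_iSup_of_finite
  let H : Subgroup GQ :=
    { carrier := {σ | ∀ v : VT N p, σ • v = v}
      one_mem' := fun v => one_smul _ v
      mul_mem' := fun {a b} ha hb v => by rw [mul_smul, hb v, ha v]
      inv_mem' := fun {a} ha v => by rw [inv_smul_eq_iff, ha v] }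
  obtain ⟨E, hE, hEH⟩ := exists_field (S := badS N p) H (⨆ x, L x) (fun σ hσ v => by
      apply Subtype.ext
      exact h v σ (IntermediateField.fixingSubgroup_antitone (le_iSup L v) hσ))
    (fun q hq A hA σ hσ v => by
      obtain ⟨h1, h2⟩ := not_dvd_of_notMem (NeZero.ne N) hp.ne_zero hq
      apply Subtype.ext
      refine inertia_fix q.2 h1 h2 hA hσ ?_
      rw [show p • (v : JZero N) = 0 from v.2, gsmul_zero])
  exact ⟨E, hE, fun s hs v => hEH hs v⟩

/-- the cocycle of a point -/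
def coc (p : ℕ) (y : JZero N) (hy : ∀ σ : GQ, σ • (p • y) = p • y) : GQ → VT N p := fun σ =>
  ⟨σ • y - y, by
    rw [mem_torS, nsmul_sub, ← gsmul_nsmul σ p y, hy, sub_self]⟩

theorem coc_mem {p : ℕ} (hp : p.Prime) (y : JZero N) (hy : ∀ σ : GQ, σ • (p • y) = p • y) :
    coc p y hy ∈ Z1S (badS N p) (VT N p) := by
  refine ⟨fun g h => Subtype.ext ?_, ?_⟩
  · change (g * h) • y - y = (g • y - y) + g • (h • y - y)
    rw [mul_smul, smul_sub]
    abel
  · obtain ⟨L, hL, hLy⟩ := Maz.level_J y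
    obtain ⟨E, hE, hEH⟩ := exists_field (S := badS N p) (MulAction.stabilizer GQ y) L
      (fun σ hσ => hLy σ hσ) (fun q hq A hA σ hσ => by
        obtain ⟨h1, h2⟩ := not_dvd_of_notMem (NeZero.ne N) hp.ne_zero hq
        exact inertia_fix q.2 h1 h2 hA hσ (hy σ))
    refine ⟨E, hE, fun g s hs => Subtype.ext ?_⟩
    change (g * s) • y - y = g • y - y
    rw [mul_smul, show s • y = y from hEH hs]

/-- the rational points -/
abbrev JQ (N : ℕ) [NeZero N] : AddSubgroup (JZero N) := FixedPoints.addSubgroup GQ (JZero N)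

/-- **weak Mordell-Weil** for an odd prime `p` -/
theorem weak_finite {p : ℕ} [hp : Fact p.Prime] (hp2 : 2 < p) :
    Finite (JQ N ⧸ (nsmulAddMonoidHom (α := JQ N) p).range) := by
  haveI := finite_VT (N := N) hp.out.ne_zero
  obtain ⟨ζ, hζ⟩ := HasEnoughRootsOfUnity.exists_primitiveRoot Qbar p
  haveI : Finite (Z1S (badS N p) (VT N p)) := finite_Z1S hp2 (mem_badS (NeZero.ne N) hp.out) hζ
    (pdata hζ fun v => Subtype.ext v.2) (levM_VT hp.out)
  choose y hy using fun x : JQ N => DivJ.divisible N hp.out.ne_zero (x : JZero N)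
  have hfix : ∀ (x : JQ N) (σ : GQ), σ • (p • y x) = p • y x := fun x σ => by
    rw [hy]
    exact x.2 σ
  refine Finite.of_injective (fun q : JQ N ⧸ (nsmulAddMonoidHom (α := JQ N) p).range =>
    (⟨coc p (y q.out) (hfix q.out), coc_mem hp.out _ _⟩ : Z1S (badS N p) (VT N p))) ?_
  intro q q' h
  have h1 := congrArg Subtype.val h
  have h2 : ∀ σ : GQ, σ • y q.out - y q.out = σ • y q'.out - y q'.out := fun σ =>
    congrArg Subtype.val (congrFun h1 σ)
  have h3 : y q'.out - y q.out ∈ JQ N := by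
    intro σ
    rw [smul_sub]
    have := h2 σ
    rw [sub_eq_sub_iff_add_eq_add] at this ⊢
    rw [add_comm (y q'.out) (σ • y q.out), this]
  rw [← QuotientAddGroup.out_eq' q, ← QuotientAddGroup.out_eq' q', QuotientAddGroup.eq]
  refine ⟨⟨_, h3⟩, Subtype.ext ?_⟩
  change p • (y q'.out - y q.out) = -(q.out : JZero N) + (q'.out : JZero N)
  rw [nsmul_sub, hy, hy]
  abel

end main

end Fermat.Agent.MWW
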